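/-
S42 / Program A, leaf (COMP) (helper61): the local data of `M_ℂ = ℂ(j_d : d ∣ N)` at a point of
the upper half plane.

S24's structure `LocalData K F X R π` and all its consumers (`exists_rel_of_place`,
`exists_place_rel`, `rel_iff_orbit`, `ord_π_eq_minimalPeriod`, ...) are abstract in the constant
field `K`.  This file ports S24's `H49.exists_localData_at` to `K = ℂ`, `F = FC N`
(`laurentBaseChange ℂ (modularFunctionFieldFull N)`), on top of the analytic dictionary
`ThetaC` / `evFC` of `S29/H37`: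

* `phiFinC N τ₀ x : FC N →+* LaurentSeries ℂ` — the Taylor expansion at `τ₀` of the translate by
  the coset `x`;  `phiFinC_evFC`.
* `exists_sym_polyC` — the elementary symmetric functions of the translates of `Θ_ℂ(P)` are
  complex polynomials in `J`.
* `exists_localDataC_at` — the local data at `τ₀` (fixed by `γ` with primitive multiplier).
* `exists_localDataC_fin` — the local data over every finite centre `c : ℂ`.
-/
import Fermat.Agent.S29.H37.FieldC
import Fermat.Agent.S24.FinCenter

set_option autoImplicit false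

open UpperHalfPlane ModularCurve CongruenceSubgroup
open scoped MatrixGroups Manifold

noncomputable section

namespace Fermat.Agent.S42.H61

open Fermat.Agent.S24 Fermat.Agent.S29.H37

variable (N : ℕ)

/-- The translate by the coset `x`, as a ring endomorphism of the functions on `ℍ`. -/
def trfRing (x : XX N) : (ℍ → ℂ) →+* (ℍ → ℂ) := precomp ((Quotient.out x : SL(2, ℤ))⁻¹)

theorem trfRing_apply (x : XX N) (f : ℍ → ℂ) : trfRing N x f = trf N f x := rfl

theorem trf_eq_zero_iff (x : XX N) (f : ℍ → ℂ) : trf N f x = 0 ↔ f = 0 := by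
  constructor
  · intro h
    funext τ
    have h1 := congrFun h ((Quotient.out x : SL(2, ℤ)) • τ)
    simpa [trf] using h1
  · rintro rfl
    rfl

/-- The translates of the polynomial functions, as holomorphic functions. -/
def translHolC (x : XX N) : MvPolynomial (N.divisors) ℂ →+* H49.holSubring :=
  ((trfRing N x).comp (ThetaC N)).codRestrict H49.holSubring
    fun P => mdiff_trf N (mdiff_ThetaC N P) x

theorem translHolC_coe (x : XX N) (P : MvPolynomial (N.divisors) ℂ) :
    (translHolC N x P : ℍ → ℂ) = trf N (ThetaC N P) x := rfl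

/-- The polynomial-level Taylor expansion homomorphism at `τ₀`. -/
def PhiFinC (τ₀ : ℍ) (x : XX N) : MvPolynomial (N.divisors) ℂ →+* LaurentSeries ℂ :=
  (H49.laurentHom τ₀).comp (translHolC N x)

theorem PhiFinC_apply (τ₀ : ℍ) (x : XX N) (P : MvPolynomial (N.divisors) ℂ) :
    PhiFinC N τ₀ x P
      = HahnSeries.ofPowerSeries ℤ ℂ (taylorAt τ₀ (trf N (ThetaC N P) x)) := rfl

theorem evFC_C (a : ℂ) : evFC N (MvPolynomial.C a) = algebraMap ℂ (FC N) a := by
  simp [evFC]

theorem evFC_X (d : N.divisors) : evFC N (MvPolynomial.X d) = jFC N d := by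
  simp [evFC]

/-- Precomposition with `γ` permutes the multiset of translates. -/
theorem map_trf_smul [Fintype (XX N)] {f : ℍ → ℂ}
    (hf : ∀ γ ∈ Gamma0 N, ∀ τ : ℍ, f (γ • τ) = f τ) (γ : SL(2, ℤ)) (τ : ℍ) :
    (Finset.univ.val.map fun y : XX N => trf N f y (γ • τ))
      = (Finset.univ.val.map fun y : XX N => trf N f y τ) := by
  have h1 : (fun y : XX N => trf N f y (γ • τ))
      = fun y => trf N f ((MulAction.toPerm γ⁻¹ : Equiv.Perm (XX N)) y) τ := by
    funext y
    rw [MulAction.toPerm_apply, trf_smul N hf, inv_inv]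
  rw [h1]
  have h := Multiset.map_univ_val_equiv (MulAction.toPerm γ⁻¹ : Equiv.Perm (XX N))
  conv_rhs => rw [← h, Multiset.map_map]
  rfl

/-- If `γ` fixes the coset `x`, the translate by `x` of a `Γ₀(N)`-invariant function is
`γ`-invariant. -/
theorem trf_smul_of_fixed {f : ℍ → ℂ} (hf : ∀ γ ∈ Gamma0 N, ∀ τ : ℍ, f (γ • τ) = f τ)
    (x : XX N) (γ : SL(2, ℤ)) (hγ : γ • x = x) (τ : ℍ) : trf N f x (γ • τ) = trf N f x τ := by
  have h := trf_smul N hf γ⁻¹ x τ
  rw [inv_inv] at h
  rw [← h]
  congr 1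
  rw [inv_smul_eq_iff, hγ]

variable [NeZero N]

theorem translHolC_eq_zero_iff (x : XX N) (P : MvPolynomial (N.divisors) ℂ) :
    translHolC N x P = 0 ↔ evFC N P = 0 := by
  rw [← ThetaC_eq_zero_iff, ← trf_eq_zero_iff N x (ThetaC N P)]
  constructor
  · intro h
    have := congrArg Subtype.val h
    exact this
  · intro h
    exact Subtype.ext h

theorem PhiFinC_eq_zero_iff (τ₀ : ℍ) (x : XX N) (P : MvPolynomial (N.divisors) ℂ) :
    PhiFinC N τ₀ x P = 0 ↔ evFC N P = 0 := by
  rw [← translHolC_eq_zero_iff N x P]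
  constructor
  · intro h
    exact H49.laurentHom_injective τ₀ (by rw [map_zero]; exact h)
  · intro h
    show H49.laurentHom τ₀ (translHolC N x P) = 0
    rw [h, map_zero]

/-- The Taylor expansion embedding of `M_ℂ` at `τ₀`, for the coset `x`. -/
def phiFinC (τ₀ : ℍ) (x : XX N) : FC N →+* LaurentSeries ℂ :=
  (exists_unique_extension (evFC N) (evFC_frac N) (PhiFinC N τ₀ x)
    (PhiFinC_eq_zero_iff N τ₀ x)).exists.choose

theorem phiFinC_evFC (τ₀ : ℍ) (x : XX N) (P : MvPolynomial (N.divisors) ℂ) :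
    phiFinC N τ₀ x (evFC N P)
      = HahnSeries.ofPowerSeries ℤ ℂ (taylorAt τ₀ (trf N (ThetaC N P) x)) :=
  (exists_unique_extension (evFC N) (evFC_frac N) (PhiFinC N τ₀ x)
    (PhiFinC_eq_zero_iff N τ₀ x)).exists.choose_spec P

theorem phiFinC_evFC' (τ₀ : ℍ) (x : XX N) (P : MvPolynomial (N.divisors) ℂ) :
    phiFinC N τ₀ x (evFC N P) = H49.laurentHom τ₀ (translHolC N x P) :=
  phiFinC_evFC N τ₀ x P

theorem phiFinC_algebraMap (τ₀ : ℍ) (x : XX N) (a : ℂ) :
    phiFinC N τ₀ x (algebraMap ℂ (FC N) a) = HahnSeries.C a := by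
  rw [← evFC_C, phiFinC_evFC]
  have h1 : trf N (ThetaC N (MvPolynomial.C a)) x = fun _ => a := by
    rw [ThetaC_C]
    rfl
  rw [h1, taylorAt_const, HahnSeries.ofPowerSeries_C]

/-- The translates of `j - c` are all equal to `J - c`. -/
theorem trf_ThetaC_X_sub_C (x : XX N) (c : ℂ) :
    trf N (ThetaC N (MvPolynomial.X (oneDiv N) - MvPolynomial.C c)) x
      = fun τ => Jfun τ - c := by
  funext τ
  show ThetaC N (MvPolynomial.X (oneDiv N) - MvPolynomial.C c)
      ((Quotient.out x : SL(2, ℤ))⁻¹ • τ) = Jfun τ - c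
  rw [map_sub, Pi.sub_apply, ThetaC_X, ThetaC_C]
  show Jd 1 _ - c = _
  rw [Jd_one, Jfun_smul]

/-- **AN-SYM over `ℂ`**: the elementary symmetric functions of the translates of `Θ_ℂ(P)` are
complex polynomials in `J`. -/
theorem exists_sym_polyC [Fintype (XX N)] (P : MvPolynomial (N.divisors) ℂ) (k : ℕ) :
    ∃ r : Polynomial ℂ, ∀ τ : ℍ,
      r.eval (Jfun τ)
        = (Finset.univ.val.map fun y : XX N => trf N (ThetaC N P) y τ).esymm k := by
  have hinv0 : ∀ γ ∈ Gamma0 N, ∀ τ : ℍ, ThetaC N P (γ • τ) = ThetaC N P τ :=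
    fun γ hγ τ => ThetaC_smul_of_mem N hγ P τ
  set w : XX N → holoGrowth := fun y =>
    ⟨trf N (ThetaC N P) y, mdiff_trf N (mdiff_ThetaC N P) y, modGrowth_trf_ThetaC N y P⟩ with hw
  set E : holoGrowth := (Finset.univ.val.map w).esymm k with hE
  have hEval : ∀ τ, (E : ℍ → ℂ) τ
      = (Finset.univ.val.map fun y : XX N => trf N (ThetaC N P) y τ).esymm k := by
    intro τ
    exact H49.map_esymm_univ
      ((Pi.evalRingHom (fun _ : ℍ => ℂ) τ).comp holoGrowth.subtype) w k
  have hEinv : ∀ (γ : SL(2, ℤ)) (τ : ℍ), (E : ℍ → ℂ) (γ • τ) = (E : ℍ → ℂ) τ := by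
    intro γ τ
    rw [hEval, hEval, map_trf_smul N hinv0]
  obtain ⟨M, hM⟩ := E.2.2
  obtain ⟨R, -, hR⟩ := H6.exists_poly_of_invariant M (E : ℍ → ℂ) E.2.1 hEinv hM
  exact ⟨R, fun τ => by rw [← hEval, hR τ]; rfl⟩

/-- **Local data of `M_ℂ` at a point `τ₀` over the centre `c`.** -/
theorem exists_localDataC_at [Fintype (XX N)] (c : ℂ) (τ₀ : ℍ)
    (γ : SL(2, ℤ)) (hγ : γ • τ₀ = τ₀) (s : ℕ) (hs : 0 < s)
    (hord : analyticOrderAt (fun z : ℂ => Jfun (ofComplex z) - c) (τ₀ : ℂ) = s)
    (hprim : IsPrimitiveRoot (denom (γ : GL (Fin 2) ℝ) τ₀ ^ 2) s)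
    (hpow : ∀ (x : XX N) (k : ℕ), γ ^ k • x = x → s ∣ k ∨ γ • x = x) :
    ∃ L : LocalData ℂ (FC N) (XX N) (evFC N).range
        (jFC N (oneDiv N) - algebraMap ℂ (FC N) c),
      L.ρ = MulAction.toPerm γ ∧ L.s = s ∧ L.ι = RingHom.id ℂ ∧ L.φ = phiFinC N τ₀ := by
  set Pπ : MvPolynomial (N.divisors) ℂ := MvPolynomial.X (oneDiv N) - MvPolynomial.C c with hPπ
  have hΓ : ∀ (P : MvPolynomial (N.divisors) ℂ), ∀ γ ∈ Gamma0 N, ∀ τ : ℍ,
      ThetaC N P (γ • τ) = ThetaC N P τ := fun P γ hγ τ => ThetaC_smul_of_mem N hγ P τ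
  have hevπ : evFC N Pπ = jFC N (oneDiv N) - algebraMap ℂ (FC N) c := by
    rw [hPπ, map_sub, evFC_X, evFC_C]
  have hnz : ∀ (x : XX N) (P : MvPolynomial (N.divisors) ℂ), evFC N P ≠ 0 →
      translHolC N x P ≠ 0 := fun x P hP => mt (translHolC_eq_zero_iff N x P).mp hP
  -- constants
  have hC : ∀ (x : XX N) (a : ℂ),
      phiFinC N τ₀ x (algebraMap ℂ (FC N) a) = HahnSeries.C ((RingHom.id ℂ) a) :=
    fun x a => phiFinC_algebraMap N τ₀ x a
  -- the parameter
  have hπ : ∀ x y : XX N, phiFinC N τ₀ x (jFC N (oneDiv N) - algebraMap ℂ (FC N) c)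
      = phiFinC N τ₀ y (jFC N (oneDiv N) - algebraMap ℂ (FC N) c) := by
    intro x y
    rw [← hevπ, phiFinC_evFC, phiFinC_evFC, hPπ, trf_ThetaC_X_sub_C, trf_ThetaC_X_sub_C]
  -- injectivity
  have hinj : Function.Injective (phiFinC N τ₀) := by
    intro x y hxy
    apply transl_injective N
    have h1 : phiFinC N τ₀ x (evFC N (MvPolynomial.X (topDiv N)))
        = phiFinC N τ₀ y (evFC N (MvPolynomial.X (topDiv N))) := by rw [hxy]
    rw [phiFinC_evFC', phiFinC_evFC'] at h1
    have h2 := congrArg Subtype.val (H49.laurentHom_injective τ₀ h1)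
    rw [translHolC_coe, translHolC_coe, ThetaC_X, ← Theta_X] at h2
    exact h2
  -- the order of the parameter
  have hsπ : ∀ x : XX N,
      (phiFinC N τ₀ x (jFC N (oneDiv N) - algebraMap ℂ (FC N) c)).order = s := by
    intro x
    have hfun : (translHolC N x Pπ : ℍ → ℂ) ∘ ofComplex
        = fun z : ℂ => Jfun (ofComplex z) - c := by
      rw [translHolC_coe, hPπ, trf_ThetaC_X_sub_C]; rfl
    have hne : translHolC N x Pπ ≠ 0 := by
      intro h0
      have h1 : (translHolC N x Pπ : ℍ → ℂ) = 0 := by rw [h0]; rfl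
      rw [h1] at hfun
      have h2 : analyticOrderAt (fun z : ℂ => Jfun (ofComplex z) - c) (τ₀ : ℂ) = ⊤ := by
        rw [← hfun, analyticOrderAt_eq_top]
        exact Filter.Eventually.of_forall fun z => rfl
      rw [h2] at hord
      exact ENat.top_ne_natCast s hord
    obtain ⟨n, hn1, hn2⟩ := H49.order_laurentHom τ₀ hne
    rw [← hevπ, phiFinC_evFC', hn2]
    rw [hfun, hord] at hn1
    have : s = n := by exact_mod_cast hn1
    rw [this]
  -- monodromy
  have hρ : ∀ (x : XX N) (P : MvPolynomial (N.divisors) ℂ), evFC N P ≠ 0 →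
      (phiFinC N τ₀ ((MulAction.toPerm γ : Equiv.Perm (XX N)) x) (evFC N P)).order
        = (phiFinC N τ₀ x (evFC N P)).order := by
    intro x P hP
    rw [MulAction.toPerm_apply]
    obtain ⟨n1, h11, h12⟩ := H49.order_laurentHom τ₀ (hnz (γ • x) P hP)
    obtain ⟨n2, h21, h22⟩ := H49.order_laurentHom τ₀ (hnz x P hP)
    rw [phiFinC_evFC', phiFinC_evFC', h12, h22]
    have hfun : (translHolC N (γ • x) P : ℍ → ℂ)
        = fun τ => trf N (ThetaC N P) x (γ⁻¹ • τ) :=
      funext fun τ => trf_smul N (hΓ P) γ x τ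
    have hfix : γ⁻¹ • τ₀ = τ₀ := by rw [inv_smul_eq_iff, hγ]
    rw [hfun, analyticOrderAt_comp_smul τ₀ (mdiff_trf N (mdiff_ThetaC N P) x) γ⁻¹, hfix] at h11
    rw [translHolC_coe, h11] at h21
    have : n1 = n2 := by exact_mod_cast h21
    rw [this]
  -- divisibility
  have hdvd : ∀ (x : XX N) (P : MvPolynomial (N.divisors) ℂ) (k : ℕ),
      ((MulAction.toPerm γ : Equiv.Perm (XX N)) ^ k) x = x → evFC N P ≠ 0 →
      (s : ℤ) ∣ k * (phiFinC N τ₀ x (evFC N P)).order := by
    intro x P k hk hP
    rw [H49.toPerm_pow_apply] at hk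
    rcases hpow x k hk with h | h
    · exact Dvd.dvd.mul_right (by exact_mod_cast h) _
    · obtain ⟨n, hn1, hn2⟩ := H49.order_laurentHom τ₀ (hnz x P hP)
      rw [phiFinC_evFC', hn2]
      have hinv : ∀ τ, trf N (ThetaC N P) x (γ • τ) = trf N (ThetaC N P) x τ := fun τ =>
        trf_smul_of_fixed N (hΓ P) x γ h τ
      have hdiv := dvd_analyticOrderAt_of_fixed τ₀ (mdiff_trf N (mdiff_ThetaC N P) x) γ hγ hinv
        s n hprim hn1
      exact Dvd.dvd.mul_left (by exact_mod_cast hdiv) _
  -- symmetric functions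
  have hsym : ∀ (P : MvPolynomial (N.divisors) ℂ) (k : ℕ),
      ∃ ε ∈ IntermediateField.adjoin ℂ {jFC N (oneDiv N) - algebraMap ℂ (FC N) c},
        ∀ x : XX N,
          phiFinC N τ₀ x ε = (Finset.univ.val.map fun y => phiFinC N τ₀ y (evFC N P)).esymm k := by
    intro P k
    obtain ⟨r, hr⟩ := exists_sym_polyC N P k
    refine ⟨evFC N (Polynomial.aeval (MvPolynomial.X (oneDiv N)) r), ?_, fun x => ?_⟩
    · have h1 : evFC N (Polynomial.aeval (MvPolynomial.X (oneDiv N)) r)
          = Polynomial.aeval (jFC N (oneDiv N)) r := by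
        rw [← Polynomial.aeval_algHom_apply, evFC_X]
      rw [h1]
      have hj : jFC N (oneDiv N)
          ∈ IntermediateField.adjoin ℂ {jFC N (oneDiv N) - algebraMap ℂ (FC N) c} := by
        have hπmem := IntermediateField.mem_adjoin_simple_self ℂ
          (jFC N (oneDiv N) - algebraMap ℂ (FC N) c)
        have hc := (IntermediateField.adjoin ℂ
          {jFC N (oneDiv N) - algebraMap ℂ (FC N) c}).algebraMap_mem c
        have := add_mem hπmem hc
        simpa using this
      have hle : Algebra.adjoin ℂ {jFC N (oneDiv N)} ≤ (IntermediateField.adjoin ℂ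
          {jFC N (oneDiv N) - algebraMap ℂ (FC N) c}).toSubalgebra :=
        Algebra.adjoin_le (Set.singleton_subset_iff.mpr hj)
      exact hle (Polynomial.aeval_mem_adjoin_singleton _ _)
    · rw [phiFinC_evFC']
      have hE : translHolC N x (Polynomial.aeval (MvPolynomial.X (oneDiv N)) r)
          = (Finset.univ.val.map fun y => translHolC N y P).esymm k := by
        apply Subtype.ext
        funext τ
        have hR := H49.map_esymm_univ
          ((Pi.evalRingHom (fun _ : ℍ => ℂ) τ).comp H49.holSubring.subtype)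
          (fun y => translHolC N y P) k
        have hL : (translHolC N x (Polynomial.aeval (MvPolynomial.X (oneDiv N)) r) : ℍ → ℂ) τ
            = (Finset.univ.val.map fun y : XX N => trf N (ThetaC N P) y τ).esymm k := by
          show ThetaC N _ ((Quotient.out x : SL(2, ℤ))⁻¹ • τ) = _
          rw [ThetaC_aeval_X_oneDiv, hr, map_trf_smul N (hΓ P)]
        rw [hL]
        exact hR.symm
      rw [hE, H49.map_esymm_univ]
      simp only [phiFinC_evFC']
  obtain ⟨L, hLρ, hLφ⟩ := H49.exists_localData_of_poly (evFC N) (evFC_frac N)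
    (jFC N (oneDiv N) - algebraMap ℂ (FC N) c) (RingHom.id ℂ) (phiFinC N τ₀) hC hπ hinj s hs hsπ
    (MulAction.toPerm γ) hρ hdvd hsym
  refine ⟨L, hLρ, ?_, ?_, hLφ⟩
  · have h1 := L.order_π (QuotientGroup.mk 1 : XX N)
    rw [hLφ, hsπ] at h1
    exact_mod_cast h1.symm
  · ext a
    have h1 := L.φ_algebraMap (QuotientGroup.mk 1 : XX N) a
    rw [hLφ, hC] at h1
    exact (HahnSeries.C_injective h1).symm

/-! ### The finite centres -/

open scoped Classical in
/-- A point of the upper half plane over the centre `c : ℂ`. -/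
def centerPtC (c : ℂ) : ℍ :=
  if c = 0 then ellRho else if c = 1728 then UpperHalfPlane.I
  else (Jfun_surjective c).choose

open scoped Classical in
/-- The elliptic element fixing `centerPtC c`. -/
def centerEltC (c : ℂ) : SL(2, ℤ) :=
  if c = 0 then ModularGroup.S * ModularGroup.T else if c = 1728 then ModularGroup.S else 1

open scoped Classical in
/-- The order of `J - c` at `centerPtC c`. -/
def centerOrdC (c : ℂ) : ℕ := if c = 0 then 3 else if c = 1728 then 2 else 1

omit [NeZero N] in
theorem centerOrdC_pos (c : ℂ) : 0 < centerOrdC c := by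
  unfold centerOrdC
  split_ifs <;> norm_num

omit [NeZero N] in
theorem centerOrdC_eq_one_or_prime (c : ℂ) : centerOrdC c = 1 ∨ (centerOrdC c).Prime := by
  unfold centerOrdC
  split_ifs
  · exact Or.inr Nat.prime_three
  · exact Or.inr Nat.prime_two
  · exact Or.inl rfl

omit [NeZero N] in
theorem Jfun_centerPtC (c : ℂ) : Jfun (centerPtC c) = c := by
  unfold centerPtC
  split_ifs with h0 h1
  · rw [h0]
    exact Jfun_rho
  · rw [h1]
    exact Jfun_I
  · exact (Jfun_surjective c).choose_spec

omit [NeZero N] in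
theorem centerEltC_smul (c : ℂ) : centerEltC c • centerPtC c = centerPtC c := by
  unfold centerEltC centerPtC
  split_ifs with h0 h1
  · exact H64.ST_smul_rho
  · exact H64.S_smul_I
  · exact one_smul _ _

omit [NeZero N] in
theorem analyticOrderAt_centerPtC (c : ℂ) :
    analyticOrderAt (fun z : ℂ => Jfun (ofComplex z) - c) (centerPtC c : ℂ) = centerOrdC c := by
  by_cases h0 : c = 0
  · have hpt : centerPtC c = ellRho := if_pos h0
    have hord : centerOrdC c = 3 := if_pos h0
    rw [hpt, hord, h0]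
    simpa using analyticOrderAt_Jfun_rho
  · by_cases h1 : c = 1728
    · have hpt : centerPtC c = UpperHalfPlane.I := by
        unfold centerPtC
        rw [if_neg h0, if_pos h1]
      have hord : centerOrdC c = 2 := by
        unfold centerOrdC
        rw [if_neg h0, if_pos h1]
      rw [hpt, hord, h1]
      exact_mod_cast analyticOrderAt_Jfun_I
    · have hord : centerOrdC c = 1 := by
        unfold centerOrdC
        rw [if_neg h0, if_neg h1]
      have hτ : Jfun (centerPtC c) = c := Jfun_centerPtC c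
      have hJ0 : Jfun (centerPtC c) ≠ 0 := by rw [hτ]; exact h0
      have hJ1 : Jfun (centerPtC c) ≠ 1728 := by rw [hτ]; exact h1
      have h := analyticOrderAt_Jfun_generic (centerPtC c) hJ0 hJ1
      rw [hτ] at h
      rw [hord]
      exact_mod_cast h

omit [NeZero N] in
theorem isPrimitiveRoot_centerEltC (c : ℂ) :
    IsPrimitiveRoot (denom (centerEltC c : GL (Fin 2) ℝ) (centerPtC c) ^ 2) (centerOrdC c) := by
  by_cases h0 : c = 0
  · have hpt : centerPtC c = ellRho := if_pos h0
    have hord : centerOrdC c = 3 := if_pos h0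
    have helt : centerEltC c = ModularGroup.S * ModularGroup.T := if_pos h0
    rw [hpt, hord, helt]
    exact isPrimitiveRoot_denom_ST
  · by_cases h1 : c = 1728
    · have hpt : centerPtC c = UpperHalfPlane.I := by
        unfold centerPtC
        rw [if_neg h0, if_pos h1]
      have hord : centerOrdC c = 2 := by
        unfold centerOrdC
        rw [if_neg h0, if_pos h1]
      have helt : centerEltC c = ModularGroup.S := by
        unfold centerEltC
        rw [if_neg h0, if_pos h1]
      rw [hpt, hord, helt]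
      exact isPrimitiveRoot_denom_S
    · have hord : centerOrdC c = 1 := by
        unfold centerOrdC
        rw [if_neg h0, if_neg h1]
      have helt : centerEltC c = 1 := by
        unfold centerEltC
        rw [if_neg h0, if_neg h1]
      rw [hord, helt, IsPrimitiveRoot.one_right_iff]
      simp [denom]

omit [NeZero N] in
theorem centerEltC_pow_smul (c : ℂ) (x : XX N) : centerEltC c ^ centerOrdC c • x = x := by
  unfold centerEltC centerOrdC
  split_ifs with h0 h1
  · exact Fermat.Agent.S20.H46.ST_cube_smul N x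
  · exact Fermat.Agent.S20.H46.S_sq_smul N x
  · simp

omit [NeZero N] in
theorem centerEltC_dvd_or (c : ℂ) (x : XX N) (k : ℕ) (hk : centerEltC c ^ k • x = x) :
    centerOrdC c ∣ k ∨ centerEltC c • x = x := by
  rcases centerOrdC_eq_one_or_prime c with h | h
  · left
    rw [h]
    exact one_dvd k
  · exact H49.dvd_or_smul_eq_of_pow_smul (centerEltC c) h (centerEltC_pow_smul N c) x k hk

/-- **The local data of `M_ℂ` over the finite centre `c`.** -/
theorem exists_localDataC_fin [Fintype (XX N)] (c : ℂ) :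
    ∃ L : LocalData ℂ (FC N) (XX N) (evFC N).range
        (jFC N (oneDiv N) - algebraMap ℂ (FC N) c),
      L.ρ = MulAction.toPerm (centerEltC c) ∧ L.s = centerOrdC c ∧ L.ι = RingHom.id ℂ ∧
        L.φ = phiFinC N (centerPtC c) :=
  exists_localDataC_at N c (centerPtC c) (centerEltC c) (centerEltC_smul c) (centerOrdC c)
    (centerOrdC_pos c) (analyticOrderAt_centerPtC c) (isPrimitiveRoot_centerEltC c)
    (centerEltC_dvd_or N c)

end Fermat.Agent.S42.H61
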