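/-
S42 / Program A, skeleton leaf 8 (helper61): `LeafAN3` of `S42/H96/Skeleton.lean`, VERBATIM,
for an ARBITRARY modulus `p`:

  a root datum over `ℂ` with character `ζ_p ^ ψ`, `ψ ∈ Hp N p`, forces `p ∣ v.ord g` at every
  place `v` of `M_ℂ` over a finite value of `j`.

Proof.  `v` has a centre `c`; by the local data over `c` (`exists_localDataC_fin`, LocalC.lean)
and the generic S24 theorems `LocalData.exists_rel_of_place`, `LocalData.ord_π_eq_minimalPeriod`,
there is a coset `x` with `(φ_x f).order * e = s * v.ord f` for all `f`, `e = v.ord (j - c)` the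
length of the orbit of `x` under the elliptic element `γ` of the centre point, `s ∈ {1, 2, 3}`.
`(φ_x g).order = p * (ord (G ∘ g_x⁻¹) - ord (Θ_ℂ(b) ∘ g_x⁻¹))`.
* `γ • x ≠ x`: `e = s`, so `v.ord g = (φ_x g).order`.
* `γ • x = x`: `e = 1`; `g_x⁻¹ γ g_x ∈ Γ₀(N)` has finite order, so `ψ` kills it and `G ∘ g_x⁻¹`
  is `γ`-invariant: `s` divides its order (and that of the translate of `Θ_ℂ(b)`).
-/
import Fermat.Agent.S42.H61.LocalC
import Fermat.Agent.S42.H96.Skeleton
import Fermat.Agent.S24.Newton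
import Fermat.Agent.S24.Fiber
import Fermat.Agent.S24.Residue

set_option autoImplicit false

open UpperHalfPlane ModularCurve CongruenceSubgroup AlgebraicCurve
open scoped MatrixGroups Manifold

noncomputable section

namespace Fermat.Agent.S42.H61

open Fermat.Agent.S24 Fermat.Agent.S29.H37

/-! ### The elliptic elements -/

theorem centerEltC_pow_two_mul (c : ℂ) : centerEltC c ^ (2 * centerOrdC c) = 1 := by
  unfold centerEltC centerOrdC
  split_ifs with h0 h1
  · rw [mul_comm, pow_mul, Fermat.Agent.S20.H46.ST_cube_eq_neg_one]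
    simp
  · rw [mul_comm, pow_mul, Fermat.Agent.S20.H46.S_sq_eq_neg_one]
    simp
  · simp

/-- If `γ` fixes the coset `x = g_x Γ₀(N)`, then `g_x⁻¹ γ g_x ∈ Γ₀(N)`. -/
theorem conj_out_mem (N : ℕ) (x : XX N) (γ : SL(2, ℤ)) (hγ : γ • x = x) :
    (Quotient.out x : SL(2, ℤ))⁻¹ * γ * (Quotient.out x : SL(2, ℤ)) ∈ Gamma0 N := by
  have h1 : (QuotientGroup.mk (Quotient.out x : SL(2, ℤ)) : XX N) = x := QuotientGroup.out_eq' x
  have h2 : (QuotientGroup.mk (γ * (Quotient.out x : SL(2, ℤ))) : XX N) = x := by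
    conv_rhs => rw [← hγ, ← h1]
    rfl
  have h3 : (QuotientGroup.mk (Quotient.out x : SL(2, ℤ)) : XX N)
      = QuotientGroup.mk (γ * (Quotient.out x : SL(2, ℤ))) := by rw [h1, h2]
  have h4 := QuotientGroup.eq.mp h3
  rwa [← mul_assoc] at h4

/-- The translate by a `γ`-fixed coset of a function with a character which is trivial on the
elements of finite order is invariant under a finite-order `γ`. -/
theorem trf_smul_of_fixed_of_char (N : ℕ) {G : ℍ → ℂ} {χ : Gamma0 N → ℂ}
    (hchar : ∀ (δ : Gamma0 N) (τ : ℍ), G ((δ : SL(2, ℤ)) • τ) = χ δ * G τ)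
    (hχ : ∀ δ : Gamma0 N, IsOfFinOrder δ → χ δ = 1)
    (x : XX N) (γ : SL(2, ℤ)) (hfin : IsOfFinOrder γ) (hγ : γ • x = x) (τ : ℍ) :
    trf N G x (γ • τ) = trf N G x τ := by
  set a : SL(2, ℤ) := (Quotient.out x : SL(2, ℤ)) with ha
  set δ : Gamma0 N := ⟨a⁻¹ * γ * a, conj_out_mem N x γ hγ⟩ with hδ
  have hδfin : IsOfFinOrder δ := by
    obtain ⟨n, hn, hn1⟩ := isOfFinOrder_iff_pow_eq_one.mp hfin
    refine isOfFinOrder_iff_pow_eq_one.mpr ⟨n, hn, Subtype.ext ?_⟩
    show (a⁻¹ * γ * a) ^ n = 1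
    have h := conj_pow (a := a⁻¹) (b := γ) (i := n)
    rw [inv_inv] at h
    rw [h, hn1]
    group
  have h1 : a⁻¹ • γ • τ = (δ : SL(2, ℤ)) • a⁻¹ • τ := by
    show a⁻¹ • γ • τ = (a⁻¹ * γ * a) • a⁻¹ • τ
    rw [← mul_smul, ← mul_smul]
    congr 1
    group
  show G (a⁻¹ • γ • τ) = G (a⁻¹ • τ)
  rw [h1, hchar δ, hχ δ hδfin, one_mul]

/-! ### Identification of the skeleton's vocabulary with that of `S29/H37` -/

theorem evC_eq (N : ℕ) : H96.evC N = evFC N := rfl

theorem ThetaC_eq (N : ℕ) : H96.ThetaC N = ThetaC N := rfl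

theorem jC_eq (N : ℕ) (d : N.divisors) : H96.jC N d = jFC N d := rfl

/-! ### The leaf -/

variable (N : ℕ) [NeZero N]

/-- every element of `M_ℂ` is a quotient of elements of the range of `evFC` -/
theorem frac_range (f : FC N) :
    ∃ a ∈ (evFC N).range, ∃ b ∈ (evFC N).range, b ≠ 0 ∧ f = a / b := by
  obtain ⟨P, Q, hQ, rfl⟩ := evFC_frac N f
  exact ⟨evFC N P, ⟨P, rfl⟩, evFC N Q, ⟨Q, rfl⟩, hQ, rfl⟩

/-- Every place of `M_ℂ` at which `j` is regular has a centre `c : ℂ`. -/
theorem exists_center (v : Place ℂ (FC N)) (hv : jFC N (oneDiv N) ∈ v.toValuationSubring) :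
    ∃ c : ℂ, 0 < v.ord (jFC N (oneDiv N) - algebraMap ℂ (FC N) c) := by
  classical
  have : Fintype (XX N) := Fintype.ofFinite _
  obtain ⟨L₀, -⟩ := exists_localDataC_fin N 0
  have : Algebra.IsAlgebraic
      (IntermediateField.adjoin ℂ {jFC N (oneDiv N) - algebraMap ℂ (FC N) 0}) (FC N) :=
    L₀.isAlgebraic (frac_range N)
  obtain ⟨a, ha | ha⟩ := exists_sub_algebraMap_ord_pos
    (jFC N (oneDiv N) - algebraMap ℂ (FC N) 0) v hv
  · exfalso
    obtain ⟨L, -⟩ := exists_localDataC_fin N a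
    exact L.π_ne_zero (sub_eq_zero.mpr ha)
  · exact ⟨a, ha⟩

/-- **Core of `LeafAN3`.**  `g * b(j_d) ^ p = c(j_d)` in `M_ℂ`, `Θ_ℂ(c) = G ^ p` with `G`
holomorphic, transforming under `Γ₀(N)` by a character which is trivial on the elements of
finite order: then `p ∣ v.ord g` at every place `v` of `M_ℂ` over a finite value of `j`. -/
theorem dvd_ord_of_root (p : ℕ) (g : FC N) (hg : g ≠ 0) (c b : MvPolynomial (N.divisors) ℂ)
    (hb : evFC N b ≠ 0) (hgb : g * evFC N b ^ p = evFC N c)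
    (G : ℍ → ℂ) (hG : MDiff G) (hGp : ∀ τ, G τ ^ p = ThetaC N c τ)
    (χ : Gamma0 N → ℂ) (hchar : ∀ (δ : Gamma0 N) (τ : ℍ), G ((δ : SL(2, ℤ)) • τ) = χ δ * G τ)
    (hχ : ∀ δ : Gamma0 N, IsOfFinOrder δ → χ δ = 1)
    (v : Place ℂ (FC N)) (hv : jFC N (oneDiv N) ∈ v.toValuationSubring) :
    (p : ℤ) ∣ v.ord g := by
  classical
  have : Fintype (XX N) := Fintype.ofFinite _
  obtain ⟨c₀, hc₀⟩ := exists_center N v hv
  obtain ⟨L, hLρ, hLs, -, hLφ⟩ := exists_localDataC_fin N c₀
  obtain ⟨x, hx⟩ := L.exists_rel_of_place (frac_range N) v hc₀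
  have hperiod := L.ord_π_eq_minimalPeriod (frac_range N) v hc₀ hx
  set z := centerPtC c₀ with hz
  set γ := centerEltC c₀ with hγ
  set s := centerOrdC c₀ with hs
  have hs0 : (0 : ℤ) < s := by exact_mod_cast centerOrdC_pos c₀
  -- the orders
  set GH : H49.holSubring := ⟨trf N G x, mdiff_trf N hG x⟩ with hGH
  have hpow : translHolC N x c = GH ^ p := by
    apply Subtype.ext
    funext τ
    show ThetaC N c ((Quotient.out x : SL(2, ℤ))⁻¹ • τ) = (G ((Quotient.out x : SL(2, ℤ))⁻¹ • τ)) ^ p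
    rw [hGp]
  have hφc : L.φ x (evFC N c) = (H49.laurentHom z GH) ^ p := by
    rw [hLφ, phiFinC_evFC', hpow, map_pow]
  have hφ : L.φ x g * (L.φ x (evFC N b)) ^ p = (H49.laurentHom z GH) ^ p := by
    rw [← hφc, ← hgb, map_mul, map_pow]
  have hg' : L.φ x g ≠ 0 := (map_ne_zero (L.φ x)).mpr hg
  have hb' : L.φ x (evFC N b) ≠ 0 := (map_ne_zero (L.φ x)).mpr hb
  have hord : (L.φ x g).order + p * (L.φ x (evFC N b)).order
      = p * (H49.laurentHom z GH).order := by
    have h1 := congrArg HahnSeries.order hφ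
    rw [lorder_mul hg' (pow_ne_zero p hb'), lorder_pow, lorder_pow] at h1
    exact h1
  have hrel := hx g
  rw [hLs] at hrel
  by_cases hfix : γ • x = x
  · -- the coset is fixed by the elliptic element
    have hmin : Function.minimalPeriod L.ρ x = 1 := by
      rw [Function.minimalPeriod_eq_one_iff_isFixedPt, hLρ]
      exact hfix
    rw [hmin] at hperiod
    rw [hperiod] at hrel
    -- `s` divides the order of the translate of `b`
    have hsb : (s : ℤ) ∣ (L.φ x (evFC N b)).order := by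
      have h := L.dvd_order x (evFC N b) 1 (by rw [pow_one, hLρ]; exact hfix)
      rw [hLs] at h
      simpa using h
    -- `s` divides the order of the translate of `G`
    have hsG : (s : ℤ) ∣ (H49.laurentHom z GH).order := by
      by_cases hGH0 : GH = 0
      · rw [hGH0, map_zero, HahnSeries.order_zero]
        exact dvd_zero _
      · obtain ⟨n, hn1, hn2⟩ := H49.order_laurentHom z hGH0
        rw [hn2]
        have hfin : IsOfFinOrder γ :=
          isOfFinOrder_iff_pow_eq_one.mpr ⟨2 * s, by have := centerOrdC_pos c₀; omega,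
            centerEltC_pow_two_mul c₀⟩
        have hinv : ∀ τ, trf N G x (γ • τ) = trf N G x τ := fun τ =>
          trf_smul_of_fixed_of_char N hchar hχ x γ hfin hfix τ
        have hdiv := dvd_analyticOrderAt_of_fixed z (mdiff_trf N hG x) γ (centerEltC_smul c₀)
          hinv s n (isPrimitiveRoot_centerEltC c₀) hn1
        exact_mod_cast hdiv
    obtain ⟨m₁, hm₁⟩ := hsb
    obtain ⟨m₂, hm₂⟩ := hsG
    refine ⟨m₂ - m₁, ?_⟩
    have h2 : (s : ℤ) * v.ord g = s * (p * (m₂ - m₁)) := by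
      rw [← hrel]
      rw [hm₁, hm₂] at hord
      push_cast
      linear_combination hord
    exact mul_left_cancel₀ hs0.ne' h2
  · -- the orbit of the coset has length `s`
    have hmin : Function.minimalPeriod L.ρ x = s := by
      apply Nat.dvd_antisymm
      · apply Function.IsPeriodicPt.minimalPeriod_dvd
        show (L.ρ)^[s] x = x
        rw [← Equiv.Perm.coe_pow, hLρ, H49.toPerm_pow_apply]
        exact centerEltC_pow_smul N c₀ x
      · have h1 : (L.ρ ^ Function.minimalPeriod L.ρ x) x = x := by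
          rw [Equiv.Perm.coe_pow]
          exact Function.isPeriodicPt_minimalPeriod L.ρ x
        rw [hLρ, H49.toPerm_pow_apply] at h1
        rcases centerEltC_dvd_or N c₀ x _ h1 with h | h
        · rw [hLρ]
          exact h
        · exact absurd h hfix
    rw [hmin] at hperiod
    rw [hperiod] at hrel
    have h2 : v.ord g = (L.φ x g).order := by
      have h3 : (s : ℤ) * v.ord g = s * (L.φ x g).order := by linear_combination -hrel
      exact mul_left_cancel₀ hs0.ne' h3
    refine ⟨(H49.laurentHom z GH).order - (L.φ x (evFC N b)).order, ?_⟩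
    rw [h2]
    linear_combination hord

/-- **Skeleton leaf 8 (`LeafAN3`), verbatim, for every modulus `p`.** -/
theorem leafAN3 (p : ℕ) : H96.LeafAN3 N p := by
  rintro ψ hψ g hg ⟨c, b, G, hb, hgb, hG, hGp, hchar⟩ v hv
  refine dvd_ord_of_root N p g hg c b hb hgb G hG hGp (H96.chiOf p ψ) hchar ?_ v hv
  intro δ hδ
  show H96.zetaP p ^ (ψ (Additive.ofMul δ)).val = 1
  rw [hψ.2 δ hδ, ZMod.val_zero, pow_zero]

end Fermat.Agent.S42.H61
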