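/-
S42 / Program A, leaf (COMP), abstract half (helper61).

`exists_le_of_forall_mem`: let `K` be an infinite field, `M` a field over `K` and `V i`
(`i` in a finite nonempty index type) valuation subrings of `M` containing `K` whose residue
fields are `K`.  If a valuation subring `v` of `M` containing `K` contains every element which
lies in all the `V i`, then `V i ≤ v` for some `i`.  No approximation theorem is used.
-/
import Mathlib

set_option autoImplicit false

namespace Fermat.Agent.S42.H61

open scoped Classical in
/-- an element of the nonunits times an element of the subring is a nonunit -/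
theorem mul_mem_nonunits {M : Type*} [Field M] (A : ValuationSubring M) {c x : M}
    (hc : c ∈ A) (hx : x ∈ A.nonunits) : c * x ∈ A.nonunits := by
  rw [ValuationSubring.mem_nonunits_iff] at hx ⊢
  rw [map_mul]
  have h1 : A.valuation c ≤ 1 := (A.valuation_le_one_iff c).2 hc
  calc A.valuation c * A.valuation x ≤ 1 * A.valuation x := by gcongr
    _ = A.valuation x := one_mul _
    _ < 1 := hx

/-- a nonunit plus an element of valuation one has valuation one -/
theorem valuation_add_eq_one {M : Type*} [Field M] (A : ValuationSubring M) {x y : M}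
    (hx : x ∈ A.nonunits) (hy : A.valuation y = 1) : A.valuation (x + y) = 1 := by
  rw [ValuationSubring.mem_nonunits_iff] at hx
  have := A.valuation.map_add_eq_of_lt_left (x := y) (y := x) (by rw [hy]; exact hx)
  rw [add_comm, this, hy]

/-- nonzero constants have valuation one -/
theorem valuation_algebraMap_eq_one {K M : Type*} [Field K] [Field M] [Algebra K M]
    (A : ValuationSubring M) (hKA : ∀ c : K, algebraMap K M c ∈ A) {c : K} (hc : c ≠ 0) :
    A.valuation (algebraMap K M c) = 1 := by
  have h1 : A.valuation (algebraMap K M c) ≤ 1 := (A.valuation_le_one_iff _).2 (hKA c)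
  have h2 : A.valuation (algebraMap K M c⁻¹) ≤ 1 := (A.valuation_le_one_iff _).2 (hKA c⁻¹)
  have h3 : A.valuation (algebraMap K M c) * A.valuation (algebraMap K M c⁻¹) = 1 := by
    rw [← map_mul, ← map_mul, mul_inv_cancel₀ hc, map_one, map_one]
  by_contra hne
  have hlt : A.valuation (algebraMap K M c) < 1 := lt_of_le_of_ne h1 hne
  have : A.valuation (algebraMap K M c) * A.valuation (algebraMap K M c⁻¹) < 1 := by
    calc A.valuation (algebraMap K M c) * A.valuation (algebraMap K M c⁻¹)
        ≤ A.valuation (algebraMap K M c) * 1 := by gcongr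
      _ = A.valuation (algebraMap K M c) := mul_one _
      _ < 1 := hlt
  rw [h3] at this
  exact lt_irrefl _ this

/-- **(VAL)**.  A valuation subring which contains the intersection of finitely many valuation
subrings with residue field `K` (an infinite field of constants) contains one of them. -/
theorem exists_le_of_forall_mem {K M : Type*} [Field K] [Infinite K] [Field M] [Algebra K M]
    {ι : Type*} [Finite ι] [Nonempty ι]
    (V : ι → ValuationSubring M) (hKV : ∀ i (c : K), algebraMap K M c ∈ V i)
    (hres : ∀ i, ∀ a ∈ V i, ∃ c : K, a - algebraMap K M c ∈ (V i).nonunits)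
    (v : ValuationSubring M) (hKv : ∀ c : K, algebraMap K M c ∈ v)
    (h : ∀ a : M, (∀ i, a ∈ V i) → a ∈ v) : ∃ i, V i ≤ v := by
  classical
  let _ : Fintype ι := Fintype.ofFinite ι
  by_contra hne
  push Not at hne
  -- witnesses `a i ∈ V i \ v`
  have hex : ∀ i, ∃ a, a ∈ V i ∧ a ∉ v := fun i => by
    have := hne i
    rw [SetLike.not_le_iff_exists] at this
    exact this
  choose a haV hav using hex
  -- residues of `a i` at the `V j` that contain it
  have hcex : ∀ i j, ∃ c : K, a i ∈ V j → a i - algebraMap K M c ∈ (V j).nonunits := fun i j => by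
    by_cases hij : a i ∈ V j
    · obtain ⟨c, hc⟩ := hres j (a i) hij
      exact ⟨c, fun _ => hc⟩
    · exact ⟨0, fun h => absurd h hij⟩
  choose c hc using hcex
  -- `lam i` avoids all residues of `a i`
  have hlam : ∀ i, ∃ l : K, ∀ j, l ≠ c i j := fun i => by
    obtain ⟨l, hl⟩ := Infinite.exists_notMem_finset (Finset.univ.image (c i))
    exact ⟨l, fun j hj => hl (by rw [hj]; exact Finset.mem_image_of_mem _ (Finset.mem_univ j))⟩
  choose lam hlam using hlam
  set a' : ι → M := fun i => (a i - algebraMap K M (lam i))⁻¹ with ha'
  -- (1) `a' i` is a nonunit of `v`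
  have h1 : ∀ i, a' i ∈ v.nonunits := fun i => by
    rw [ha', ValuationSubring.inv_mem_nonunits_iff]
    right
    intro hmem
    apply hav i
    have := add_mem hmem (hKv (lam i))
    simpa using this
  -- (2) `a' i ∈ V j` for all `j`, with valuation one at `j = i`
  have h2 : ∀ i j, a i ∈ V j → (V j).valuation (a' i) = 1 := fun i j hij => by
    have hsplit : a i - algebraMap K M (lam i)
        = (a i - algebraMap K M (c i j)) + algebraMap K M (c i j - lam i) := by
      rw [map_sub]; ring
    have hne0 : c i j - lam i ≠ 0 := sub_ne_zero.2 (fun h => hlam i j h.symm)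
    have hv : (V j).valuation (a i - algebraMap K M (lam i)) = 1 := by
      rw [hsplit]
      exact valuation_add_eq_one (V j) (hc i j hij)
        (valuation_algebraMap_eq_one (V j) (hKV j) hne0)
    rw [ha']
    simp only
    rw [map_inv₀, hv, inv_one]
  have h2' : ∀ i j, a' i ∈ V j := fun i j => by
    by_cases hij : a i ∈ V j
    · rw [← ValuationSubring.valuation_le_one_iff, h2 i j hij]
    · have hnot : a i - algebraMap K M (lam i) ∉ V j := fun hmem => by
        apply hij
        have := add_mem hmem (hKV j (lam i))
        simpa using this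
      have : a' i ∈ (V j).nonunits := by
        rw [ha', ValuationSubring.inv_mem_nonunits_iff]
        exact Or.inr hnot
      exact (V j).nonunits_le this
  -- (3) residues `r i j` of `a' i` at `V j`
  choose r hr using fun i j => hres j (a' i) (h2' i j)
  have hrjj : ∀ j, r j j ≠ 0 := fun j hj => by
    have h0 := hr j j
    rw [hj, map_zero, sub_zero, ValuationSubring.mem_nonunits_iff, h2 j j (haV j)] at h0
    exact lt_irrefl _ h0
  -- (4) a combination avoiding all the hyperplanes
  let f : ι → Module.Dual K (ι → K) := fun j =>
    ∑ i, r i j • (LinearMap.proj i : (ι → K) →ₗ[K] K)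
  have hf : ∀ j (t : ι → K), f j t = ∑ i, r i j * t i := fun j t => by
    simp [f, LinearMap.sum_apply]
  have hfne : ∀ j, ∃ t, f j t ≠ 0 := fun j => by
    refine ⟨Pi.single j 1, ?_⟩
    rw [hf]
    simp [Pi.single_apply, hrjj j]
  obtain ⟨t, ht⟩ := Module.Dual.exists_forall_ne_zero_of_forall_exists f hfne
  set b : M := ∑ i, algebraMap K M (t i) * a' i with hb
  -- `b` is a nonunit of `v`
  have hbv : b ∈ v.nonunits := by
    rw [hb]
    refine Finset.sum_induction _ (fun x => x ∈ v.nonunits) (fun x y hx hy => v.nonunits.add_mem hx hy)
      v.nonunits.zero_mem (fun i _ => mul_mem_nonunits v (hKv (t i)) (h1 i))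
  -- `b` has valuation one at every `V j`
  have hbV : ∀ j, (V j).valuation b = 1 := fun j => by
    have hdecomp : b = (∑ i, algebraMap K M (t i) * (a' i - algebraMap K M (r i j)))
        + algebraMap K M (f j t) := by
      rw [hb, hf, map_sum, ← Finset.sum_add_distrib]
      refine Finset.sum_congr rfl (fun i _ => ?_)
      rw [map_mul]; ring
    rw [hdecomp]
    refine valuation_add_eq_one (V j) ?_ (valuation_algebraMap_eq_one (V j) (hKV j) (ht j))
    refine Finset.sum_induction _ (fun x => x ∈ (V j).nonunits)
      (fun x y hx hy => (V j).nonunits.add_mem hx hy) (V j).nonunits.zero_mem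
      (fun i _ => mul_mem_nonunits (V j) (hKV j (t i)) (hr i j))
  -- contradiction
  have hbinv : b⁻¹ ∈ v := h _ (fun j => by
    rw [← ValuationSubring.valuation_le_one_iff, map_inv₀, hbV j, inv_one])
  obtain ⟨j⟩ := ‹Nonempty ι›
  have hb0 : b ≠ 0 := fun hb0 => by
    have := hbV j
    rw [hb0, map_zero] at this
    exact zero_ne_one this
  have hone : (1 : M) ∈ v.nonunits := by
    have := mul_mem_nonunits v hbinv hbv
    rwa [inv_mul_cancel₀ hb0] at this
  rw [ValuationSubring.mem_nonunits_iff, map_one] at hone
  exact lt_irrefl _ hone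

end Fermat.Agent.S42.H61
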