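/-
S42 / Program A, leaf (COMP), abstract half for Prelude places (helper61).

* `place_eq_of_le` : two places `P`, `Q` of `F/K` with `P ≤ Q` (as valuation subrings) are equal.
* `exists_place_eq_of_forall_mem` : if a place `v` contains every element which is regular at
  all places `V i` of a finite nonempty family (residue fields `K`, `K` infinite), then `v` is
  one of the `V i`.
-/
import Fermat.Agent.S42.H61.ValLemma
import Fermat.Prelude.Def_AlgebraicCurve_DivisorClassGroup

set_option autoImplicit false

namespace Fermat.Agent.S42.H61

open AlgebraicCurve

variable {K F : Type*} [Field K] [Field F] [Algebra K F]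

/-- places are determined by their valuation subrings -/
theorem place_ext {P Q : Place K F} (h : P.toValuationSubring = Q.toValuationSubring) : P = Q := by
  cases P; cases Q
  simp only at h
  subst h
  rfl

/-- a place contained in another place is equal to it (places are discrete valuation rings) -/
theorem place_eq_of_le {P Q : Place K F} (h : P.toValuationSubring ≤ Q.toValuationSubring) :
    P = Q := by
  have : IsPrincipalIdealRing P.toValuationSubring := P.isPrincipalIdealRing'
  exact place_ext (P.toValuationSubring.eq_of_le_of_ne_top h Q.ne_top')

/-- **(VAL) for places.**  If the place `v` contains every element of `F` which lies in all the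
places `V i` (finite nonempty family, residue fields `K`), then `v = V i` for some `i`. -/
theorem exists_place_eq_of_forall_mem [Infinite K] {ι : Type*} [Finite ι] [Nonempty ι]
    (V : ι → Place K F)
    (hres : ∀ i, ∀ a ∈ (V i).toValuationSubring,
      ∃ c : K, a - algebraMap K F c ∈ (V i).toValuationSubring.nonunits)
    (v : Place K F)
    (h : ∀ a : F, (∀ i, a ∈ (V i).toValuationSubring) → a ∈ v.toValuationSubring) :
    ∃ i, V i = v := by
  obtain ⟨i, hi⟩ := exists_le_of_forall_mem (fun i => (V i).toValuationSubring)
    (fun i c => (V i).algebraMap_mem' c) hres v.toValuationSubring v.algebraMap_mem' h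
  exact ⟨i, place_eq_of_le hi⟩

end Fermat.Agent.S42.H61
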